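import Fermat.Agent.H91.PurityMain

/-!
# P-ES / KL-GB, tower step, abstract core (helper35)

`R₁ ⊆ K₁`, `R₂ ⊆ K₂` integrally closed domains with their fraction fields, `K₁ ⊆ K₂ ⊆ E` a tower
of finite field extensions (in the application `R₁ = A[j]`, `R₂ = A[t]`, where
`j t ^ e = R(t)`).

* `traceNondegAt_tower` : nondegeneracy of the trace form of the integral closure modulo the
  prime `p` passes from `(R₁, K₁)` to `(R₂, K₂)`.
* `hasGoodBasisAt_of_traceNondegAt` : nondegeneracy of the trace form modulo a prime element `p`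
  (with `R / p` a principal ideal ring and finite integral closure) gives a good basis at `(p)`.
-/

set_option autoImplicit false
set_option linter.style.haveILetI false
set_option linter.unusedSectionVars false

noncomputable section

namespace Fermat.Agent.H35.KLGB

open Fermat.Agent.H91

section Scale

/-- **Scaling lemma.**  If every element of `S₁` becomes an element of `S₂` after multiplication
by a power of `g ∈ S₂` (inside `E`), every element integral over `S₁` becomes integral over `S₂`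
after multiplication by a power of `g`. -/
theorem exists_pow_smul_isIntegral {S₁ S₂ E : Type*} [CommRing S₁] [CommRing S₂] [CommRing E]
    [Algebra S₁ E] [Algebra S₂ E] (g : S₂)
    (H : ∀ c : S₁, ∃ (k : ℕ) (c' : S₂),
      algebraMap S₂ E (g ^ k) * algebraMap S₁ E c = algebraMap S₂ E c')
    {y : E} (hy : IsIntegral S₁ y) : ∃ a : ℕ, IsIntegral S₂ (g ^ a • y) := by
  classical
  obtain ⟨P, hP, hPy⟩ := hy
  choose k c' hk using H
  set n := P.natDegree with hn
  -- a uniform exponent
  set a : ℕ := ∑ i ∈ Finset.range n, k (P.coeff i) with ha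
  have hka : ∀ i ∈ Finset.range n, k (P.coeff i) ≤ a := fun i hi =>
    Finset.single_le_sum (f := fun i => k (P.coeff i)) (fun _ _ => Nat.zero_le _) hi
  refine ⟨a, ?_⟩
  -- the coefficients of the scaled polynomial
  set q : ℕ → S₂ := fun i => g ^ (a * (n - i) - k (P.coeff i)) * c' (P.coeff i) with hq
  have hqi : ∀ i ∈ Finset.range n,
      algebraMap S₂ E (q i) = algebraMap S₂ E (g ^ a) ^ (n - i) * algebraMap S₁ E (P.coeff i) := by
    intro i hi
    have hi' : i < n := Finset.mem_range.mp hi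
    have h1 : k (P.coeff i) ≤ a * (n - i) := by
      calc k (P.coeff i) ≤ a := hka i hi
        _ = a * 1 := (mul_one a).symm
        _ ≤ a * (n - i) := Nat.mul_le_mul_left a (by omega)
    rw [hq]
    simp only
    rw [map_mul, ← hk (P.coeff i), ← mul_assoc, ← map_mul, ← pow_add,
      Nat.sub_add_cancel h1, ← map_pow, ← pow_mul]
  set Q : Polynomial S₂ :=
    Polynomial.X ^ n + ∑ i ∈ Finset.range n, Polynomial.C (q i) * Polynomial.X ^ i with hQ
  have hdeg : (∑ i ∈ Finset.range n, Polynomial.C (q i) * Polynomial.X ^ i).degree < (n : WithBot ℕ) := by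
    refine (Polynomial.degree_sum_le _ _).trans_lt
      ((Finset.sup_lt_iff (WithBot.bot_lt_coe n)).mpr fun i hi => ?_)
    refine (Polynomial.degree_C_mul_X_pow_le i (q i)).trans_lt ?_
    exact WithBot.coe_lt_coe.mpr (Finset.mem_range.mp hi)
  have hQmonic : Q.Monic := Polynomial.monic_X_pow_add hdeg
  refine ⟨Q, hQmonic, ?_⟩
  have hy' : g ^ a • y = algebraMap S₂ E (g ^ a) * y := Algebra.smul_def _ _
  rw [hy', hQ, Polynomial.eval₂_add, Polynomial.eval₂_pow, Polynomial.eval₂_X,
    Polynomial.eval₂_finsetSum]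
  have hterm : ∀ i ∈ Finset.range n,
      Polynomial.eval₂ (algebraMap S₂ E) (algebraMap S₂ E (g ^ a) * y)
        (Polynomial.C (q i) * Polynomial.X ^ i) =
      algebraMap S₂ E (g ^ a) ^ n * (algebraMap S₁ E (P.coeff i) * y ^ i) := by
    intro i hi
    have hi' : i < n := Finset.mem_range.mp hi
    rw [Polynomial.eval₂_mul, Polynomial.eval₂_C, Polynomial.eval₂_pow, Polynomial.eval₂_X,
      hqi i hi, mul_pow]
    have h2 : algebraMap S₂ E (g ^ a) ^ n
        = algebraMap S₂ E (g ^ a) ^ (n - i) * algebraMap S₂ E (g ^ a) ^ i := by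
      rw [← pow_add, Nat.sub_add_cancel hi'.le]
    rw [h2]
    ring
  rw [Finset.sum_congr rfl hterm, ← Finset.mul_sum, mul_pow, ← mul_add]
  have hPsum : y ^ n + ∑ i ∈ Finset.range n, algebraMap S₁ E (P.coeff i) * y ^ i = 0 := by
    have h3 := hPy
    rw [Polynomial.eval₂_eq_sum_range, ← hn, Finset.sum_range_succ] at h3
    have h4 : P.coeff n = 1 := hP
    rw [h4, map_one, one_mul] at h3
    rw [add_comm]
    exact h3
  rw [hPsum, mul_zero]

end Scale

section TowerCore

variable {R₁ : Type*} [CommRing R₁] [IsDomain R₁] [IsIntegrallyClosed R₁]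
variable {K₁ : Type*} [Field K₁] [Algebra R₁ K₁] [IsFractionRing R₁ K₁]
variable {R₂ : Type*} [CommRing R₂] [IsDomain R₂] [IsIntegrallyClosed R₂]
variable {K₂ : Type*} [Field K₂] [Algebra R₂ K₂] [IsFractionRing R₂ K₂]
variable {E : Type*} [Field E] [Algebra K₁ E] [Algebra R₁ E] [IsScalarTower R₁ K₁ E]
  [Algebra K₂ E] [Algebra R₂ E] [IsScalarTower R₂ K₂ E]
  [Algebra K₁ K₂] [IsScalarTower K₁ K₂ E] [FiniteDimensional K₁ E]

/-- **Tower step for the trace form.**  In a tower `K₁ ⊆ K₂ ⊆ E` with integrally closed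
`R₁ ⊆ K₁`, `R₂ ⊆ K₂`, primes `p₁`, `p₂` with the same image in `E`, and `g ∈ R₂` with
`p₂ ∤ g ^ a` such that
* (a) integral over `R₂` implies integral over `R₁`,
* (b) integral over `R₁` implies integral over `R₂` after multiplication by a power of `g`,
* (c) the traces to `K₁` of the elements `r / g ^ a` of `K₂` lie in `R₁`,
nondegeneracy of the trace form modulo `p₁` over `R₁` implies nondegeneracy of the trace form
modulo `p₂` over `R₂`. -/
theorem traceNondegAt_tower {p₁ : R₁} {p₂ : R₂} (hp₂ : Prime p₂)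
    (hpp : algebraMap R₁ E p₁ = algebraMap R₂ E p₂) (g : R₂) (hg : ∀ a : ℕ, ¬ p₂ ∣ g ^ a)
    (Fa : ∀ x : E, IsIntegral R₂ x → IsIntegral R₁ x)
    (Fb : ∀ y : E, IsIntegral R₁ y → ∃ a : ℕ, IsIntegral R₂ (g ^ a • y))
    (Fc : ∀ (r : R₂) (a : ℕ), ∃ c : R₁, algebraMap R₁ K₁ c =
        Algebra.trace K₁ K₂ (algebraMap R₂ K₂ r / algebraMap R₂ K₂ g ^ a))
    (h : TraceNondegAt R₁ K₁ E (Ideal.span {p₁})) :
    TraceNondegAt R₂ K₂ E (Ideal.span {p₂}) := by
  classical
  haveI : FiniteDimensional K₂ E := FiniteDimensional.right K₁ K₂ E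
  haveI : FiniteDimensional K₁ K₂ := FiniteDimensional.left K₁ K₂ E
  have hg0 : algebraMap R₂ K₂ g ≠ 0 := by
    intro h0
    have h1 : g = 0 := (IsFractionRing.injective R₂ K₂) (by rw [h0, map_zero])
    apply hg 1
    rw [h1, pow_one]
    exact dvd_zero _
  have hppK : algebraMap R₂ K₂ p₂ = algebraMap K₁ K₂ (algebraMap R₁ K₁ p₁) := by
    apply (algebraMap K₂ E).injective
    rw [← IsScalarTower.algebraMap_apply R₂ K₂ E, ← IsScalarTower.algebraMap_apply K₁ K₂ E,
      ← IsScalarTower.algebraMap_apply R₁ K₁ E, hpp]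
  intro x hx htr
  -- Step A: the trace form over `R₁` is divisible by `p₁` on `x`
  have hA : ∀ y : E, IsIntegral R₁ y →
      ∃ a ∈ Ideal.span {p₁}, algebraMap R₁ K₁ a = Algebra.trace K₁ E (x * y) := by
    intro y hy
    obtain ⟨a, hya⟩ := Fb y hy
    obtain ⟨s, hs, hst⟩ := htr _ hya
    obtain ⟨s', rfl⟩ := Ideal.mem_span_singleton.mp hs
    obtain ⟨c, hc⟩ := Fc s' a
    refine ⟨p₁ * c, Ideal.mem_span_singleton.mpr (dvd_mul_right _ _), ?_⟩
    have h1 : x * (g ^ a • y) = algebraMap R₂ K₂ (g ^ a) • (x * y) := by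
      rw [algebraMap_smul, mul_smul_comm]
    rw [h1, map_smul, smul_eq_mul, map_pow] at hst
    have h2 : Algebra.trace K₂ E (x * y)
        = algebraMap K₁ K₂ (algebraMap R₁ K₁ p₁)
            * (algebraMap R₂ K₂ s' / algebraMap R₂ K₂ g ^ a) := by
      rw [← hppK, ← mul_div_assoc, ← map_mul, hst,
        mul_div_cancel_left₀ _ (pow_ne_zero a hg0)]
    rw [← Algebra.trace_trace (S := K₂), h2, ← Algebra.smul_def, map_smul, smul_eq_mul, ← hc,
      map_mul]
  -- Step B: apply nondegeneracy over `R₁`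
  have hB := h x (Fa x hx) hA
  rw [mem_span_singleton_smul_iff] at hB ⊢
  obtain ⟨z, hz, hxz⟩ := hB
  have hxz' : x = p₂ • z := by
    rw [hxz, Algebra.smul_def, Algebra.smul_def, hpp]
  refine ⟨z, ?_, hxz'⟩
  obtain ⟨a, hza⟩ := Fb z hz
  exact isIntegral_of_smul_of_smul K₂ hp₂ (hg a) (hxz' ▸ hx) hza

end TowerCore

section GoodBasisOfNondeg

variable {R : Type*} [CommRing R] [IsDomain R] [IsIntegrallyClosed R]
variable {K : Type*} [Field K] [Algebra R K] [IsFractionRing R K]
variable {E : Type*} [Field E] [Algebra K E] [Algebra R E] [IsScalarTower R K E]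
  [FiniteDimensional K E]

/-- Nondegeneracy of the trace form modulo a prime element `p` (with `R / p` a principal ideal
ring and finite integral closure) gives a good basis at `(p)`. -/
theorem hasGoodBasisAt_of_traceNondegAt [IsNoetherianRing R] [UniqueFactorizationMonoid R] {p : R}
    (hp : Prime p) [IsPrincipalIdealRing (R ⧸ Ideal.span {p})]
    [Module.Finite R ↥(integralClosure R E)]
    (hnd : TraceNondegAt R K E (Ideal.span {p})) :
    HasGoodBasisAt R K E (Ideal.span {p}) := by
  classical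
  haveI : (Ideal.span {p}).IsPrime := (Ideal.span_singleton_prime hp.ne_zero).mpr hp
  have hp𝔪 : p ∈ Ideal.span {p} := Ideal.mem_span_singleton_self p
  have hnd' : ∀ h ∈ Ideal.span {p}, Prime h → TraceNondegAt R K E (Ideal.span {h}) := by
    intro h hh hprime
    obtain ⟨u, rfl⟩ := Ideal.mem_span_singleton.mp hh
    have hu : IsUnit u := by
      rcases hprime.irreducible.isUnit_or_isUnit rfl with h1 | h1
      · exact absurd h1 hp.not_isUnit
      · exact h1
    have : Ideal.span {p * u} = Ideal.span {p} := Ideal.span_singleton_mul_right_unit hu p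
    rw [this]
    exact hnd
  obtain ⟨n, b, r, G, hint, hli, hr1, hspan, hG, hd⟩ :=
    exists_basis_det_notMem K E hp hp𝔪 hnd'
  refine ⟨n, b, G, ?_, hint, hG, hd⟩
  have hd0 : G.det ≠ 0 := fun h0 => hd (h0 ▸ Ideal.zero_mem _)
  have hliK := linearIndependent_of_det_ne_zero hG hd0
  have hr0 : r ≠ 0 := by
    rintro rfl
    obtain ⟨c, hc⟩ := hr1
    have h1 : (1 : R) ∈ Ideal.span {p} := by
      have h2 : (1 : R) = p * (-c) := by rw [mul_neg, ← hc]; ring
      rw [h2]
      exact (Ideal.span {p}).mul_mem_right _ hp𝔪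
    exact (Ideal.IsPrime.ne_top ‹_›) ((Ideal.eq_top_iff_one _).mpr h1)
  have hspanK : ⊤ ≤ Submodule.span K (Set.range b) := by
    intro x _
    obtain ⟨s, hs0, hs⟩ := exists_ne_zero_isIntegral_smul (R := R) (K := K) x
    obtain ⟨c, hc⟩ := hspan _ hs
    have h1 : x = (algebraMap R K (r * s))⁻¹ • ∑ i, algebraMap R K (c i) • b i := by
      have h2 : algebraMap R K (r * s) ≠ 0 :=
        (map_ne_zero_iff _ (IsFractionRing.injective R K)).mpr (mul_ne_zero hr0 hs0)
      rw [eq_inv_smul_iff₀ h2, algebraMap_smul, mul_smul, hc]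
      refine Finset.sum_congr rfl fun i _ => ?_
      rw [algebraMap_smul]
    rw [h1]
    exact Submodule.smul_mem _ _ (Submodule.sum_mem _ fun i _ =>
      Submodule.smul_mem _ _ (Submodule.subset_span ⟨i, rfl⟩))
  have := Module.finrank_eq_card_basis (Module.Basis.mk hliK hspanK)
  rw [this, Fintype.card_fin]

end GoodBasisOfNondeg

end Fermat.Agent.H35.KLGB
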