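import Fermat.Agent.H22.ES.KLSetting
import Fermat.Agent.H35.KLGB.TowerCore

/-!
# P-ES / KL-GB, tower step (helper35)

`goodBasis_tower` : let `A` be a discrete valuation ring with uniformiser `ϖ`, `E ⊇ A` a field of
characteristic zero, `j, t ∈ E` with `t` transcendental over `A` and `j * t ^ e = R(t)` for a
monic `R ∈ A[X]` of degree `> e ≥ 1` with unit constant coefficient.  Then
`GoodBasis A E ϖ j → GoodBasis A E ϖ t` (in the sense of `Fermat.Agent.H22.KL`).

Applications: `t = t₂ = Δ(z)/Δ(2z)`, `j t² = (t + 256)³` at `ℓ = 3`;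
`t = t₃ = (η(z)/η(3z))¹²`, `j t³ = (t + 27)(t + 243)³` at `ℓ = 2`.

Proof: the trace form of the integral closure of `A[j]` is nondegenerate modulo `ϖ`
(`Fermat.Agent.H91.HasGoodBasisAt.traceNondegAt_span`); this passes to `A[t]`
(`traceNondegAt_tower`, transitivity of the trace, `A[j] ⊆ A[t, t⁻¹] = A[j, t]` integral over
`A[j]`, saturation); an adapted basis of the integral closure of `A[t]` then has discriminant
prime to `ϖ` (`Fermat.Agent.H91.exists_basis_det_notMem`).
-/

set_option autoImplicit false
set_option linter.style.haveILetI false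
set_option linter.unusedSectionVars false

noncomputable section

namespace Fermat.Agent.H35.KLGB

open Fermat.Agent.H91 Fermat.Agent.H22.KL Polynomial
open Fermat.Agent.H67.KLConn (PiDvd)

section GenericIncl

variable {A : Type} [CommRing A] {E : Type} [Field E] [Algebra A E]

/-- the inclusion of a subalgebra in a subfield containing it -/
def subalgIncl (S : Subalgebra A E) (K : Subfield E) (h : ∀ y ∈ S, y ∈ K) : ↥S →+* ↥K :=
  (S.val : ↥S →+* E).codRestrict K (fun y => h y.1 y.2)

/-- the algebra structure given by `subalgIncl` -/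
abbrev subalgAlgebra (S : Subalgebra A E) (K : Subfield E) (h : ∀ y ∈ S, y ∈ K) :
    Algebra ↥S ↥K := (subalgIncl S K h).toAlgebra

theorem subalgTower (S : Subalgebra A E) (K : Subfield E) (h : ∀ y ∈ S, y ∈ K) :
    letI := subalgAlgebra S K h
    IsScalarTower ↥S ↥K E :=
  letI := subalgAlgebra S K h
  IsScalarTower.of_algebraMap_eq (fun _ => rfl)

theorem subalgIncl_injective (S : Subalgebra A E) (K : Subfield E) (h : ∀ y ∈ S, y ∈ K) :
    Function.Injective (subalgIncl S K h) := by
  intro a b hab
  apply Subtype.ext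
  exact congrArg (fun z : ↥K => (z : E)) hab

theorem subalgIncl_coe (S : Subalgebra A E) (K : Subfield E) (h : ∀ y ∈ S, y ∈ K) (y : ↥S) :
    ((subalgIncl S K h y : ↥K) : E) = (y : E) := rfl

theorem subalg_algebraMap_coe (S : Subalgebra A E) (K : Subfield E) (h : ∀ y ∈ S, y ∈ K)
    (y : ↥S) :
    letI := subalgAlgebra S K h
    ((algebraMap ↥S ↥K y : ↥K) : E) = (y : E) := rfl

theorem subalg_algebraMap_top (S : Subalgebra A E) (y : ↥S) :
    algebraMap ↥S E y = (y : E) := rfl

theorem subfield_algebraMap_top (K : Subfield E) (y : ↥K) :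
    algebraMap ↥K E y = (y : E) := rfl

theorem subalg_algebraMap_base (S : Subalgebra A E) (a : A) :
    algebraMap ↥S E (algebraMap A ↥S a) = algebraMap A E a := rfl

theorem subalgFraction (S : Subalgebra A E) (K : Subfield E) (h : ∀ y ∈ S, y ∈ K)
    (hK : ∀ z ∈ K, ∃ y ∈ S, ∃ w ∈ S, y / w = z) :
    letI := subalgAlgebra S K h
    IsFractionRing ↥S ↥K := by
  letI := subalgAlgebra S K h
  haveI : FaithfulSMul ↥S ↥K :=
    (faithfulSMul_iff_algebraMap_injective _ _).mpr (subalgIncl_injective S K h)
  refine IsFractionRing.of_field _ _ ?_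
  rintro ⟨z, hz⟩
  obtain ⟨y, hy, w, hw, hyw⟩ := hK z hz
  refine ⟨⟨y, hy⟩, ⟨w, hw⟩, Subtype.ext ?_⟩
  rw [Subfield.coe_div]
  exact hyw.symm

/-- the inclusion of a subfield in a larger subfield -/
def subfieldIncl {K₁ K₂ : Subfield E} (h : K₁ ≤ K₂) : ↥K₁ →+* ↥K₂ :=
  (K₁.subtype).codRestrict K₂ (fun y => h y.2)

/-- the algebra structure given by `subfieldIncl` -/
abbrev subfieldAlgebra {K₁ K₂ : Subfield E} (h : K₁ ≤ K₂) : Algebra ↥K₁ ↥K₂ :=
  (subfieldIncl h).toAlgebra

theorem subfieldTower {K₁ K₂ : Subfield E} (h : K₁ ≤ K₂) :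
    letI := subfieldAlgebra h
    IsScalarTower ↥K₁ ↥K₂ E :=
  letI := subfieldAlgebra h
  IsScalarTower.of_algebraMap_eq (fun _ => rfl)

/-- the algebra structure `S → K₁ → K₂` -/
abbrev subalgAlgebraComp (S : Subalgebra A E) (K₁ K₂ : Subfield E) (h : ∀ y ∈ S, y ∈ K₁)
    (h₁₂ : K₁ ≤ K₂) : Algebra ↥S ↥K₂ :=
  ((subfieldIncl h₁₂).comp (subalgIncl S K₁ h)).toAlgebra

theorem subalgTowerComp (S : Subalgebra A E) (K₁ K₂ : Subfield E) (h : ∀ y ∈ S, y ∈ K₁)
    (h₁₂ : K₁ ≤ K₂) :
    letI := subalgAlgebra S K₁ h
    letI := subfieldAlgebra h₁₂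
    letI := subalgAlgebraComp S K₁ K₂ h h₁₂
    IsScalarTower ↥S ↥K₁ ↥K₂ :=
  letI := subalgAlgebra S K₁ h
  letI := subfieldAlgebra h₁₂
  letI := subalgAlgebraComp S K₁ K₂ h h₁₂
  IsScalarTower.of_algebraMap_eq (fun _ => rfl)

theorem subalgTowerComp' (S : Subalgebra A E) (K₁ K₂ : Subfield E) (h : ∀ y ∈ S, y ∈ K₁)
    (h₁₂ : K₁ ≤ K₂) :
    letI := subalgAlgebraComp S K₁ K₂ h h₁₂
    IsScalarTower ↥S ↥K₂ E :=
  letI := subalgAlgebraComp S K₁ K₂ h h₁₂
  IsScalarTower.of_algebraMap_eq (fun _ => rfl)

/-- the image in `E` of a quotient `r / g ^ a` formed in the subfield `K` -/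
theorem subalg_div_pow_coe (S : Subalgebra A E) (K : Subfield E) (h : ∀ y ∈ S, y ∈ K)
    (r g : ↥S) (a : ℕ) :
    letI := subalgAlgebra S K h
    algebraMap ↥K E (algebraMap ↥S ↥K r / algebraMap ↥S ↥K g ^ a) = (r : E) * ((g : E)⁻¹) ^ a := by
  letI := subalgAlgebra S K h
  rw [map_div₀, map_pow, div_eq_mul_inv, inv_pow]
  rfl

end GenericIncl

section ChartInst

variable (A : Type) [CommRing A] (E : Type) [Field E] [Algebra A E] (x : E)

theorem chartRing_le_chartField : ∀ y ∈ chartRing A E x, y ∈ chartField A E x :=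
  fun _ hy => Subfield.subset_closure hy

/-- the algebra structure of `K₀(x)` over `A[x]` -/
abbrev chartAlgebra : Algebra ↥(chartRing A E x) ↥(chartField A E x) :=
  subalgAlgebra (chartRing A E x) (chartField A E x) (chartRing_le_chartField A E x)

theorem chartTower :
    letI := chartAlgebra A E x
    IsScalarTower ↥(chartRing A E x) ↥(chartField A E x) E :=
  subalgTower (chartRing A E x) (chartField A E x) (chartRing_le_chartField A E x)

theorem chartFraction :
    letI := chartAlgebra A E x
    IsFractionRing ↥(chartRing A E x) ↥(chartField A E x) := by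
  refine subalgFraction (chartRing A E x) (chartField A E x) (chartRing_le_chartField A E x) ?_
  intro z hz
  obtain ⟨y, hy, w, hw, hyw⟩ := Subfield.mem_closure_iff.mp hz
  have hcl : Subring.closure ((chartRing A E x : Subalgebra A E) : Set E)
      ≤ (chartRing A E x).toSubring := Subring.closure_le.mpr (fun y hy => hy)
  exact ⟨y, hcl hy, w, hcl hw, hyw⟩

/-- membership in `B(x)` is integrality over `A[x]` -/
theorem mem_chartClosure_iff {y : E} :
    y ∈ chartClosure A E x ↔ IsIntegral ↥(chartRing A E x) y := Iff.rfl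

variable {A E x}

section Transc

variable [IsDomain A] [IsDiscreteValuationRing A] (hx : Transcendental A x)

include hx

/-- `A[X] ≃ A[x]` for transcendental `x` -/
def chartEquiv : A[X] ≃ₐ[A] ↥(chartRing A E x) := Polynomial.algEquivOfTranscendental A x hx

omit [IsDomain A] [IsDiscreteValuationRing A] in
theorem chartEquiv_C (a : A) :
    chartEquiv hx (C a) = algebraMap A ↥(chartRing A E x) a := by
  rw [← Polynomial.algebraMap_eq]
  exact (chartEquiv hx).commutes a

omit [IsDomain A] [IsDiscreteValuationRing A] in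
theorem chartEquiv_coe (p : A[X]) :
    ((chartEquiv hx p : ↥(chartRing A E x)) : E) = aeval x p := by
  have h : chartEquiv hx p = aeval (⟨x, Algebra.self_mem_adjoin_singleton A x⟩ :
      ↥(Algebra.adjoin A ({x} : Set E))) p := rfl
  rw [h]
  exact Polynomial.aeval_subalgebra_coe p _ _

theorem chart_isIntegrallyClosed : IsIntegrallyClosed ↥(chartRing A E x) := by
  haveI : IsIntegrallyClosed A[X] := inferInstance
  exact IsIntegrallyClosed.of_equiv (chartEquiv hx).toRingEquiv

theorem chart_isNoetherianRing : IsNoetherianRing ↥(chartRing A E x) :=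
  isNoetherianRing_of_ringEquiv A[X] (chartEquiv hx).toRingEquiv

theorem chart_ufm : UniqueFactorizationMonoid ↥(chartRing A E x) :=
  (chartEquiv hx).toMulEquiv.uniqueFactorizationMonoid inferInstance

theorem chart_prime {ϖ : A} (hϖ : Irreducible ϖ) :
    Prime (algebraMap A ↥(chartRing A E x) ϖ) := by
  have h1 : Prime (C ϖ : A[X]) := Polynomial.prime_C_iff.mpr hϖ.prime
  rw [← chartEquiv_C hx]
  exact (MulEquiv.prime_iff (chartEquiv hx).toMulEquiv).mpr h1

theorem chart_not_dvd_pow {ϖ : A} (hϖ : Irreducible ϖ) (a : ℕ) :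
    ¬ (algebraMap A ↥(chartRing A E x) ϖ) ∣
      (⟨x, Algebra.self_mem_adjoin_singleton A x⟩ : ↥(chartRing A E x)) ^ a := by
  intro h
  have h1 := (chart_prime hx hϖ).dvd_of_dvd_pow h
  obtain ⟨r, hr⟩ := h1
  obtain ⟨p, rfl⟩ := (chartEquiv hx).surjective r
  have h2 : (chartEquiv hx) X = (chartEquiv hx) (C ϖ * p) := by
    rw [map_mul, chartEquiv_C hx, ← hr]
    apply Subtype.ext
    rw [chartEquiv_coe hx, aeval_X]
  have h3 := (chartEquiv hx).injective h2
  have h4 := congrArg (fun q => Polynomial.coeff q 1) h3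
  simp only [coeff_X_one, coeff_C_mul] at h4
  exact hϖ.not_isUnit (IsUnit.of_mul_eq_one _ h4.symm)

theorem chart_quot_pir {ϖ : A} (hϖ : Irreducible ϖ) :
    IsPrincipalIdealRing
      (↥(chartRing A E x) ⧸ Ideal.span {algebraMap A ↥(chartRing A E x) ϖ}) := by
  haveI : (Ideal.span {ϖ}).IsMaximal := PrincipalIdealRing.isMaximal_of_irreducible hϖ
  letI : Field (A ⧸ Ideal.span {ϖ}) := Ideal.Quotient.field _
  have hle : Ideal.map (C : A →+* A[X]) (Ideal.span {ϖ})
      ≤ Ideal.comap ((chartEquiv hx : A[X] ≃ₐ[A] ↥(chartRing A E x)) :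
            A[X] →+* ↥(chartRing A E x))
          (Ideal.span {algebraMap A ↥(chartRing A E x) ϖ}) := by
    rw [Ideal.map_span, Set.image_singleton, Ideal.span_le]
    intro q hq
    rw [Set.mem_singleton_iff] at hq
    subst hq
    rw [SetLike.mem_coe, Ideal.mem_comap]
    have h1 : ((chartEquiv hx : A[X] ≃ₐ[A] ↥(chartRing A E x)) :
        A[X] →+* ↥(chartRing A E x)) (C ϖ) = algebraMap A ↥(chartRing A E x) ϖ :=
      chartEquiv_C hx ϖ
    rw [h1]
    exact Ideal.mem_span_singleton_self _
  let f : (A ⧸ Ideal.span {ϖ})[X] →+*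
      (↥(chartRing A E x) ⧸ Ideal.span {algebraMap A ↥(chartRing A E x) ϖ}) :=
    (Ideal.quotientMap _ ((chartEquiv hx : A[X] ≃ₐ[A] ↥(chartRing A E x)) :
            A[X] →+* ↥(chartRing A E x)) hle).comp
      (Ideal.polynomialQuotientEquivQuotientPolynomial (Ideal.span {ϖ})).toRingHom
  have hf : Function.Surjective f := by
    have h1 : Function.Surjective (Ideal.quotientMap
        (Ideal.span {algebraMap A ↥(chartRing A E x) ϖ})
        ((chartEquiv hx : A[X] ≃ₐ[A] ↥(chartRing A E x)) : A[X] →+* ↥(chartRing A E x)) hle) :=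
      Ideal.quotientMap_surjective (chartEquiv hx).surjective
    have h2 : Function.Surjective
        (Ideal.polynomialQuotientEquivQuotientPolynomial (Ideal.span {ϖ})) :=
      RingEquiv.surjective _
    exact h1.comp h2
  exact IsPrincipalIdealRing.of_surjective f hf

end Transc

end ChartInst


section Bridge

variable {R : Type*} [CommRing R] [IsDomain R] [IsIntegrallyClosed R]
variable {K : Type*} [Field K] [Algebra R K] [IsFractionRing R K]
variable {E : Type*} [Field E] [Algebra K E] [Algebra R E] [IsScalarTower R K E]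
  [FiniteDimensional K E]

theorem discr_eq_algebraMap_det {n : ℕ} {b : Fin n → E} {G : Matrix (Fin n) (Fin n) R}
    (hG : ∀ i j, algebraMap R K (G i j) = Algebra.trace K E (b i * b j)) :
    Algebra.discr K b = algebraMap R K G.det := by
  classical
  rw [Algebra.discr_def, traceMatrix_eq_map hG, RingHom.map_det]
  rfl

/-- a basis of integral elements whose discriminant is not divisible by `p` is a good basis
at `(p)` -/
theorem hasGoodBasisAt_of_basis {n : ℕ} (b : Module.Basis (Fin n) K E)
    (hb : ∀ i, IsIntegral R (b i)) (p : R)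
    (hd : ¬ ∃ r : R, algebraMap K E (Algebra.discr K (fun i => b i)) = algebraMap R E (p * r)) :
    HasGoodBasisAt R K E (Ideal.span {p}) := by
  classical
  choose g hg using fun i j => exists_trace_eq (R := R) (K := K) ((hb i).mul (hb j))
  have hG : ∀ i j, algebraMap R K ((Matrix.of g) i j) = Algebra.trace K E (b i * b j) :=
    fun i j => hg i j
  refine ⟨n, fun i => b i, Matrix.of g, ?_, hb, hG, ?_⟩
  · rw [Module.finrank_eq_card_basis b, Fintype.card_fin]
  · intro hmem
    obtain ⟨r, hr⟩ := Ideal.mem_span_singleton.mp hmem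
    apply hd
    refine ⟨r, ?_⟩
    rw [discr_eq_algebraMap_det hG, hr, ← IsScalarTower.algebraMap_apply]

/-- a good basis at `(p)` in basis form -/
theorem exists_basis_of_hasGoodBasisAt {p : R} (h : HasGoodBasisAt R K E (Ideal.span {p})) :
    ∃ (n : ℕ) (b : Module.Basis (Fin n) K E), (∀ i, IsIntegral R (b i)) ∧
      ¬ ∃ r : R, algebraMap K E (Algebra.discr K (fun i => b i)) = algebraMap R E (p * r) := by
  classical
  obtain ⟨n, b, G, hn, hint, hG, hd⟩ := h
  have hd0 : G.det ≠ 0 := fun h0 => hd (h0 ▸ Ideal.zero_mem _)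
  have hli := linearIndependent_of_det_ne_zero hG hd0
  have hspan : ⊤ ≤ Submodule.span K (Set.range b) := by
    rw [hli.span_eq_top_of_card_eq_finrank' (by rw [Fintype.card_fin, hn])]
  refine ⟨n, Module.Basis.mk hli hspan, ?_, ?_⟩
  · intro i
    rw [Module.Basis.mk_apply]
    exact hint i
  · rintro ⟨r, hr⟩
    apply hd
    have hcoe : (fun i => (Module.Basis.mk hli hspan) i) = b := by
      funext i
      rw [Module.Basis.mk_apply]
    rw [hcoe, discr_eq_algebraMap_det hG, ← IsScalarTower.algebraMap_apply] at hr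
    have hinj : Function.Injective (algebraMap R E) := by
      rw [IsScalarTower.algebraMap_eq R K E]
      exact (algebraMap K E).injective.comp (IsFractionRing.injective R K)
    rw [hinj hr]
    exact Ideal.mem_span_singleton.mpr (dvd_mul_right _ _)

end Bridge


section TowerFacts

variable {A : Type} [CommRing A] {E : Type} [Field E] [Algebra A E] {j t : E}
  {R : A[X]} {e : ℕ}

/-- `t` is integral over `A[j]` when `j t ^ e = R(t)` with `R` monic of degree `> e` -/
theorem tower_isIntegral_t (hR : R.Monic) (he : e < R.natDegree)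
    (hrel : j * t ^ e = aeval t R) : IsIntegral ↥(chartRing A E j) t := by
  set jj : ↥(chartRing A E j) := ⟨j, Algebra.self_mem_adjoin_singleton A j⟩ with hjj
  refine ⟨R.map (algebraMap A ↥(chartRing A E j)) - C jj * X ^ e, ?_, ?_⟩
  · refine Polynomial.Monic.sub_of_left (hR.map _) ?_
    refine (Polynomial.degree_C_mul_X_pow_le e jj).trans_lt ?_
    rw [Polynomial.degree_eq_natDegree (hR.map _).ne_zero, hR.natDegree_map]
    exact WithBot.coe_lt_coe.mpr he
  · rw [Polynomial.eval₂_sub, Polynomial.eval₂_map, Polynomial.eval₂_mul, Polynomial.eval₂_C,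
      Polynomial.eval₂_pow, Polynomial.eval₂_X, ← IsScalarTower.algebraMap_eq,
      ← Polynomial.aeval_def, ← hrel]
    exact sub_self _

theorem tower_le_chartClosure (hR : R.Monic) (he : e < R.natDegree)
    (hrel : j * t ^ e = aeval t R) :
    Algebra.adjoin A ({j, t} : Set E) ≤ chartClosure A E j := by
  refine Algebra.adjoin_le ?_
  intro y hy
  rcases hy with rfl | hy
  · have h : IsIntegral ↥(chartRing A E y) y :=
      isIntegral_algebraMap (R := ↥(chartRing A E y)) (A := E)
        (x := ⟨y, Algebra.self_mem_adjoin_singleton A y⟩)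
    exact h
  · rw [Set.mem_singleton_iff] at hy
    subst hy
    exact tower_isIntegral_t hR he hrel

/-- `t⁻¹ ∈ A[j, t]` when the constant coefficient of `R` is a unit and `e ≥ 1` -/
theorem tower_inv_mem (hR0 : IsUnit (R.coeff 0)) (he1 : 1 ≤ e)
    (hrel : j * t ^ e = aeval t R) : t⁻¹ ∈ Algebra.adjoin A ({j, t} : Set E) := by
  obtain ⟨u, hu⟩ := hR0
  have hjm : j ∈ Algebra.adjoin A ({j, t} : Set E) := Algebra.subset_adjoin (by simp)
  have htm : t ∈ Algebra.adjoin A ({j, t} : Set E) := Algebra.subset_adjoin (by simp)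
  have hdiv : aeval t R = aeval t R.divX * t + algebraMap A E (R.coeff 0) := by
    conv_lhs => rw [← Polynomial.divX_mul_X_add R]
    rw [map_add, map_mul, aeval_X, aeval_C]
  have hpow : t ^ e = t ^ (e - 1) * t := by
    rw [← pow_succ, Nat.sub_add_cancel he1]
  have key : algebraMap A E (R.coeff 0) = t * (j * t ^ (e - 1) - aeval t R.divX) := by
    have h1 : algebraMap A E (R.coeff 0) = j * t ^ e - aeval t R.divX * t := by
      rw [hrel, hdiv]; ring
    rw [h1, hpow]; ring
  have hu1 : algebraMap A E ((u⁻¹ : Aˣ) : A) * algebraMap A E (R.coeff 0) = 1 := by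
    rw [← map_mul, ← hu, Units.inv_mul, map_one]
  have hinv : t⁻¹ = algebraMap A E ((u⁻¹ : Aˣ) : A) * (j * t ^ (e - 1) - aeval t R.divX) := by
    refine (eq_inv_of_mul_eq_one_left ?_).symm
    calc algebraMap A E ((u⁻¹ : Aˣ) : A) * (j * t ^ (e - 1) - aeval t R.divX) * t
        = algebraMap A E ((u⁻¹ : Aˣ) : A) * (t * (j * t ^ (e - 1) - aeval t R.divX)) := by ring
      _ = 1 := by rw [← key, hu1]
  rw [hinv]
  refine Subalgebra.mul_mem _ (Subalgebra.algebraMap_mem _ _) (Subalgebra.sub_mem _ ?_ ?_)
  · exact Subalgebra.mul_mem _ hjm (Subalgebra.pow_mem _ htm _)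
  · exact Algebra.adjoin_mono (by simp) (Polynomial.aeval_mem_adjoin_singleton A t)

/-- elements of `A[j]` become elements of `A[t]` after multiplication by a power of `t` -/
theorem tower_scale (hrel : j * t ^ e = aeval t R) :
    ∀ c ∈ chartRing A E j, ∃ k : ℕ, t ^ k * c ∈ chartRing A E t := by
  intro c hc
  induction hc using Algebra.adjoin_induction with
  | mem y hy =>
    rw [Set.mem_singleton_iff] at hy
    subst hy
    refine ⟨e, ?_⟩
    rw [mul_comm, hrel]
    exact Polynomial.aeval_mem_adjoin_singleton A t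
  | algebraMap a =>
    refine ⟨0, ?_⟩
    rw [pow_zero, one_mul]
    exact Subalgebra.algebraMap_mem _ a
  | add y z _ _ hy hz =>
    obtain ⟨k, hk⟩ := hy
    obtain ⟨l, hl⟩ := hz
    refine ⟨k + l, ?_⟩
    have htm : t ∈ chartRing A E t := Algebra.self_mem_adjoin_singleton A t
    have h1 : t ^ (k + l) * (y + z) = t ^ l * (t ^ k * y) + t ^ k * (t ^ l * z) := by
      rw [pow_add]; ring
    rw [h1]
    exact Subalgebra.add_mem _ (Subalgebra.mul_mem _ (Subalgebra.pow_mem _ htm _) hk)
      (Subalgebra.mul_mem _ (Subalgebra.pow_mem _ htm _) hl)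
  | mul y z _ _ hy hz =>
    obtain ⟨k, hk⟩ := hy
    obtain ⟨l, hl⟩ := hz
    refine ⟨k + l, ?_⟩
    have h1 : t ^ (k + l) * (y * z) = (t ^ k * y) * (t ^ l * z) := by
      rw [pow_add]; ring
    rw [h1]
    exact Subalgebra.mul_mem _ hk hl

/-- `j` is transcendental when `t` is transcendental and integral over `A[j]` -/
theorem tower_transcendental [IsDomain A] (ht : Transcendental A t)
    (hint : IsIntegral ↥(chartRing A E j) t) : Transcendental A j := by
  intro hj
  apply ht
  have h1 : (Algebra.adjoin A ({j} : Set E)).IsAlgebraic :=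
    Algebra.isAlgebraic_adjoin_singleton_iff.mpr hj
  haveI : Algebra.IsAlgebraic A ↥(chartRing A E j) := (Subalgebra.isAlgebraic_iff _).mp h1
  exact IsAlgebraic.restrictScalars A hint.isAlgebraic

end TowerFacts


section TowerMain2

variable (A : Type) [CommRing A] [IsDomain A] [IsDiscreteValuationRing A]
  (E : Type) [Field E] [Algebra A E] [CharZero E]

theorem chartField_le_of_rel {j t : E} {R : A[X]} {e : ℕ} (ht0 : t ≠ 0)
    (hrel : j * t ^ e = aeval t R) : chartField A E j ≤ chartField A E t := by
  have htm : t ∈ chartField A E t :=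
    Subfield.subset_closure (Algebra.self_mem_adjoin_singleton A t)
  have hjm : j ∈ chartField A E t := by
    have h1 : j = aeval t R / t ^ e := by
      rw [← hrel, mul_div_assoc, div_self (pow_ne_zero e ht0), mul_one]
    rw [h1]
    exact div_mem (Subfield.subset_closure (Polynomial.aeval_mem_adjoin_singleton A t))
      (pow_mem htm e)
  have key : ∀ y, y ∈ Algebra.adjoin A ({j} : Set E) → y ∈ chartField A E t := by
    intro y hy
    induction hy using Algebra.adjoin_induction with
    | mem z hz =>
      rw [Set.mem_singleton_iff] at hz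
      subst hz
      exact hjm
    | algebraMap a =>
      exact Subfield.subset_closure (Subalgebra.algebraMap_mem _ a)
    | add y z _ _ hy hz => exact add_mem hy hz
    | mul y z _ _ hy hz => exact mul_mem hy hz
  exact Subfield.closure_le.mpr key


/-- **KL-GB, tower step.**  Let `j, t ∈ E` with `t` transcendental over the discrete valuation
ring `A` and `j * t ^ e = R(t)` for a monic `R ∈ A[X]` of degree `> e ≥ 1` with unit constant
coefficient.  A good basis of `E` in the chart `j` gives a good basis of `E` in the chart `t`. -/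
theorem goodBasis_tower
    (ϖ : A) (hϖ : Irreducible ϖ) (j t : E) (ht : Transcendental A t)
    (R : A[X]) (e : ℕ) (hR : R.Monic) (he1 : 1 ≤ e) (he : e < R.natDegree)
    (hR0 : IsUnit (R.coeff 0)) (hrel : j * t ^ e = aeval t R)
    (hGB : GoodBasis A E ϖ j) : GoodBasis A E ϖ t := by
  classical
  have ht0 : t ≠ 0 := by
    rintro rfl
    exact ht (isAlgebraic_zero)
  have hintt : IsIntegral ↥(chartRing A E j) t := tower_isIntegral_t hR he hrel
  have hj : Transcendental A j := tower_transcendental ht hintt
  have hle : chartField A E j ≤ chartField A E t := chartField_le_of_rel A E ht0 hrel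
  have hS3 := tower_le_chartClosure hR he hrel
  -- instances for `j`
  letI algj : Algebra ↥(chartRing A E j) ↥(chartField A E j) := chartAlgebra A E j
  haveI towj : IsScalarTower ↥(chartRing A E j) ↥(chartField A E j) E := chartTower A E j
  haveI fracj : IsFractionRing ↥(chartRing A E j) ↥(chartField A E j) := chartFraction A E j
  haveI icj : IsIntegrallyClosed ↥(chartRing A E j) := chart_isIntegrallyClosed hj
  -- instances for `t`
  letI algt : Algebra ↥(chartRing A E t) ↥(chartField A E t) := chartAlgebra A E t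
  haveI towt : IsScalarTower ↥(chartRing A E t) ↥(chartField A E t) E := chartTower A E t
  haveI fract : IsFractionRing ↥(chartRing A E t) ↥(chartField A E t) := chartFraction A E t
  haveI ict : IsIntegrallyClosed ↥(chartRing A E t) := chart_isIntegrallyClosed ht
  haveI noet : IsNoetherianRing ↥(chartRing A E t) := chart_isNoetherianRing ht
  haveI ufmt : UniqueFactorizationMonoid ↥(chartRing A E t) := chart_ufm ht
  haveI pirt : IsPrincipalIdealRing
      (↥(chartRing A E t) ⧸ Ideal.span {algebraMap A ↥(chartRing A E t) ϖ}) :=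
    chart_quot_pir ht hϖ
  -- the tower of fields
  letI algK : Algebra ↥(chartField A E j) ↥(chartField A E t) := subfieldAlgebra hle
  haveI towK : IsScalarTower ↥(chartField A E j) ↥(chartField A E t) E := subfieldTower hle
  obtain ⟨n, b, hb, hd⟩ := hGB
  haveI fdj : FiniteDimensional ↥(chartField A E j) E := Module.Finite.of_basis b
  haveI fdt : FiniteDimensional ↥(chartField A E t) E :=
    FiniteDimensional.right ↥(chartField A E j) ↥(chartField A E t) E
  have hpj := chart_prime hj hϖ
  have hpt := chart_prime ht hϖ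
  -- Step 1: good basis at `(ϖ)` for `j` in abstract form
  have h1 : HasGoodBasisAt ↥(chartRing A E j) ↥(chartField A E j) E
      (Ideal.span {algebraMap A ↥(chartRing A E j) ϖ}) := by
    refine hasGoodBasisAt_of_basis b hb _ ?_
    rintro ⟨r, hr⟩
    apply hd
    refine ⟨r.1, r.2, ?_⟩
    rw [pow_one]
    refine hr.trans ?_
    rw [map_mul, Algebra.smul_def]
    rfl
  have h2 := h1.traceNondegAt_span hpj
  -- Step 2: the tower step for the trace form
  have h3 : TraceNondegAt ↥(chartRing A E t) ↥(chartField A E t) E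
      (Ideal.span {algebraMap A ↥(chartRing A E t) ϖ}) := by
    have hpp : algebraMap ↥(chartRing A E j) E (algebraMap A ↥(chartRing A E j) ϖ)
        = algebraMap ↥(chartRing A E t) E (algebraMap A ↥(chartRing A E t) ϖ) :=
      (subalg_algebraMap_base (chartRing A E j) ϖ).trans
        (subalg_algebraMap_base (chartRing A E t) ϖ).symm
    refine traceNondegAt_tower (R₁ := ↥(chartRing A E j)) (K₁ := ↥(chartField A E j))
      (R₂ := ↥(chartRing A E t)) (K₂ := ↥(chartField A E t)) (E := E)
      (p₁ := algebraMap A ↥(chartRing A E j) ϖ) (p₂ := algebraMap A ↥(chartRing A E t) ϖ)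
      hpt hpp
      (⟨t, Algebra.self_mem_adjoin_singleton A t⟩ : ↥(chartRing A E t))
      (chart_not_dvd_pow ht hϖ) ?_ ?_ ?_ h2
    · -- (a)
      intro x hx
      have hx' : IsIntegral ↥(integralClosure ↥(chartRing A E j) E) x := by
        obtain ⟨a, ha⟩ := exists_pow_smul_isIntegral (S₁ := ↥(chartRing A E t))
          (S₂ := ↥(integralClosure ↥(chartRing A E j) E)) (E := E) 1
          (fun c => ⟨0, ⟨c.1, hS3 (Algebra.adjoin_mono (by simp) c.2)⟩, by
            rw [pow_zero, map_one, one_mul]; rfl⟩) hx
        rwa [one_pow, one_smul] at ha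
      exact isIntegral_trans x hx'
    · -- (b)
      intro y hy
      refine exists_pow_smul_isIntegral (S₁ := ↥(chartRing A E j))
        (S₂ := ↥(chartRing A E t)) (E := E) _ (fun c => ?_) hy
      obtain ⟨k, hk⟩ := tower_scale hrel c.1 c.2
      refine ⟨k, ⟨_, hk⟩, ?_⟩
      rw [map_pow]
      rfl
    · -- (c)
      letI algjt : Algebra ↥(chartRing A E j) ↥(chartField A E t) :=
        subalgAlgebraComp (chartRing A E j) (chartField A E j) (chartField A E t)
          (chartRing_le_chartField A E j) hle
      haveI : IsScalarTower ↥(chartRing A E j) ↥(chartField A E j) ↥(chartField A E t) :=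
        subalgTowerComp (chartRing A E j) (chartField A E j) (chartField A E t)
          (chartRing_le_chartField A E j) hle
      haveI : IsScalarTower ↥(chartRing A E j) ↥(chartField A E t) E :=
        subalgTowerComp' (chartRing A E j) (chartField A E j) (chartField A E t)
          (chartRing_le_chartField A E j) hle
      haveI : FiniteDimensional ↥(chartField A E j) ↥(chartField A E t) :=
        FiniteDimensional.left ↥(chartField A E j) ↥(chartField A E t) E
      intro r a
      have hz : IsIntegral ↥(chartRing A E j)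
          (algebraMap ↥(chartRing A E t) ↥(chartField A E t) r /
            algebraMap ↥(chartRing A E t) ↥(chartField A E t)
              (⟨t, Algebra.self_mem_adjoin_singleton A t⟩ : ↥(chartRing A E t)) ^ a) := by
        rw [← isIntegral_algebraMap_iff (algebraMap ↥(chartField A E t) E).injective]
        have himg := subalg_div_pow_coe (chartRing A E t) (chartField A E t)
          (chartRing_le_chartField A E t) r
          (⟨t, Algebra.self_mem_adjoin_singleton A t⟩ : ↥(chartRing A E t)) a
        rw [himg]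
        exact hS3 (Subalgebra.mul_mem _ (Algebra.adjoin_mono (by simp) r.2)
          (Subalgebra.pow_mem _ (tower_inv_mem hR0 he1 hrel) a))
      exact IsIntegrallyClosed.isIntegral_iff.mp
        (Algebra.isIntegral_trace (R := ↥(chartRing A E j)) (L := ↥(chartField A E j)) hz)
  -- Step 3: a good basis for `t`
  haveI : CharZero ↥(chartField A E t) :=
    RingHom.charZero (algebraMap ↥(chartField A E t) E)
  haveI : Algebra.IsSeparable ↥(chartField A E t) E :=
    Algebra.IsAlgebraic.isSeparable_of_perfectField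
  haveI : Module.Finite ↥(chartRing A E t) ↥(integralClosure ↥(chartRing A E t) E) :=
    IsIntegralClosure.finite ↥(chartRing A E t) ↥(chartField A E t) E _
  have h4 := hasGoodBasisAt_of_traceNondegAt hpt h3
  obtain ⟨m, c, hc, hdc⟩ := exists_basis_of_hasGoodBasisAt h4
  refine ⟨m, c, hc, ?_⟩
  rintro ⟨r, hr, hrd⟩
  apply hdc
  refine ⟨⟨r, hr⟩, ?_⟩
  rw [pow_one] at hrd
  refine hrd.trans ?_
  rw [map_mul, Algebra.smul_def]
  rfl

end TowerMain2

end Fermat.Agent.H35.KLGB
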