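import Mathlib

/-!
# P-ES / KL-GB, generic core (helper35): reduction of bases, traces and discriminants

Setting: `K ⊆ L` a finite extension of fields, `OK` a valuation subring of `K` with a reduction
map `redK : OK →+* κ` whose kernel consists of the non-units, `OL` a subring of `L` containing
`OK` with a compatible reduction map `redL : OL →+* Λ` (`Λ` a field, `κ`-algebra).

* `coord_mem_of_linearIndependent_red` : if `b i ∈ OL` have `κ`-linearly independent
  reductions, then every `K`-linear combination of the `b i` lying in `OL` has coefficients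
  in `OK`.
* `red_trace`, `red_discr` : if moreover `b` is a `K`-basis of `L` and the reductions form a
  `κ`-basis of `Λ`, then traces and the discriminant of `b` lie in `OK` and reduce to the
  traces and the discriminant of the reduced basis.
* `red_discr_ne_zero` : if `Λ / κ` is separable, the discriminant of `b` is a unit of `OK`
  (its reduction is nonzero).
-/

set_option autoImplicit false

namespace Fermat.Agent.H35.KLGB

open scoped BigOperators

section Core

variable {K L κ Λ : Type*} [Field K] [Field L] [Algebra K L] [Field κ] [Field Λ] [Algebra κ Λ]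

/-- The data of compatible reduction maps on a valuation subring `OK` of `K` and a subring
`OL` of `L`. -/
structure RedData (OK : ValuationSubring K) (OL : Subring L) (κ Λ : Type*) [Field κ] [Field Λ]
    [Algebra κ Λ] where
  /-- reduction on the base -/
  redK : OK →+* κ
  /-- reduction on the top -/
  redL : OL →+* Λ
  /-- the kernel of `redK` contains the non-units -/
  redK_eq_zero : ∀ a : OK, ¬ IsUnit a → redK a = 0
  /-- `OK ⊆ OL` -/
  map_mem : ∀ a : OK, algebraMap K L (a : K) ∈ OL
  /-- compatibility -/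
  redL_map : ∀ a : OK, redL ⟨algebraMap K L (a : K), map_mem a⟩ = algebraMap κ Λ (redK a)

variable {OK : ValuationSubring K} {OL : Subring L} (R : RedData OK OL κ Λ)

/-- If the reductions of the `b i ∈ OL` are linearly independent, then a `K`-linear combination
of the `b i` which lies in `OL` has all its coefficients in `OK`. -/
theorem coord_mem_of_linearIndependent_red {n : ℕ} (b : Fin n → L) (hb : ∀ i, b i ∈ OL)
    (hlin : LinearIndependent κ (fun i => R.redL ⟨b i, hb i⟩))
    (c : Fin n → K) (hy : ∑ i, c i • b i ∈ OL) : ∀ i, c i ∈ OK := by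
  classical
  by_contra hcon
  obtain ⟨i₁, hi₁⟩ := not_forall.mp hcon
  -- an index of maximal valuation
  obtain ⟨i₀, -, hmax⟩ := Finset.exists_max_image Finset.univ (fun i => OK.valuation (c i))
    ⟨i₁, Finset.mem_univ i₁⟩
  have hi₀ : c i₀ ∉ OK := by
    intro h
    apply hi₁
    rw [← OK.valuation_le_one_iff] at h ⊢
    exact (hmax i₁ (Finset.mem_univ i₁)).trans h
  have hc0 : c i₀ ≠ 0 := by
    intro h
    apply hi₀
    rw [h]
    exact OK.zero_mem
  have hv0 : OK.valuation (c i₀) ≠ 0 := by
    rw [ne_eq, map_eq_zero]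
    exact hc0
  have hinv : (c i₀)⁻¹ ∈ OK := by
    rcases OK.mem_or_inv_mem (c i₀) with h | h
    · exact absurd h hi₀
    · exact h
  have hinv_nonunit : ¬ IsUnit (⟨(c i₀)⁻¹, hinv⟩ : OK) := by
    intro hu
    apply hi₀
    have h1 := (OK.valuation_eq_one_iff ⟨(c i₀)⁻¹, hinv⟩).mp hu
    have h1' : OK.valuation (c i₀)⁻¹ = 1 := h1
    rw [map_inv₀] at h1'
    have h2 : OK.valuation (c i₀) = 1 := by
      have h3 := congrArg (fun t => t⁻¹) h1'
      simpa using h3
    rw [← OK.valuation_le_one_iff, h2]
  have hd : ∀ i, c i * (c i₀)⁻¹ ∈ OK := by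
    intro i
    rw [← OK.valuation_le_one_iff, map_mul, map_inv₀]
    have h := hmax i (Finset.mem_univ i)
    calc OK.valuation (c i) * (OK.valuation (c i₀))⁻¹
        ≤ OK.valuation (c i₀) * (OK.valuation (c i₀))⁻¹ := mul_le_mul_left h _
      _ = 1 := mul_inv_cancel₀ hv0
  -- the identity in `OL`
  have hkey : (⟨algebraMap K L ((⟨(c i₀)⁻¹, hinv⟩ : OK) : K),
        R.map_mem ⟨(c i₀)⁻¹, hinv⟩⟩ : OL) * ⟨_, hy⟩
      = ∑ i, (⟨algebraMap K L ((⟨c i * (c i₀)⁻¹, hd i⟩ : OK) : K), R.map_mem ⟨_, hd i⟩⟩ : OL)
          * ⟨b i, hb i⟩ := by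
    apply Subtype.ext
    rw [Subring.coe_mul, AddSubmonoidClass.coe_finsetSum, Finset.mul_sum]
    refine Finset.sum_congr rfl fun i _ => ?_
    rw [Subring.coe_mul]
    simp only [Algebra.smul_def, map_mul]
    ring
  have hred := congrArg R.redL hkey
  rw [map_mul, R.redL_map, R.redK_eq_zero _ hinv_nonunit, map_zero, zero_mul, map_sum] at hred
  have hred' : ∑ i, R.redK ⟨c i * (c i₀)⁻¹, hd i⟩ • R.redL ⟨b i, hb i⟩ = 0 := by
    rw [hred]
    refine Finset.sum_congr rfl fun i _ => ?_
    rw [map_mul, R.redL_map, Algebra.smul_def]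
  have hzero := (Fintype.linearIndependent_iff.mp hlin) _ hred' i₀
  have hone : (⟨c i₀ * (c i₀)⁻¹, hd i₀⟩ : OK) = 1 := by
    apply Subtype.ext
    exact mul_inv_cancel₀ hc0
  rw [hone, map_one] at hzero
  exact one_ne_zero hzero

end Core

section Trace

variable {K L κ Λ : Type*} [Field K] [Field L] [Algebra K L] [Field κ] [Field Λ] [Algebra κ Λ]
variable {OK : ValuationSubring K} {OL : Subring L} (R : RedData OK OL κ Λ)
variable {n : ℕ} (b : Module.Basis (Fin n) K L) (hb : ∀ i, b i ∈ OL)
  (bbar : Module.Basis (Fin n) κ Λ) (hbbar : ∀ i, bbar i = R.redL ⟨b i, hb i⟩)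

include hbbar in
/-- The coordinates of an element of `OL` lie in `OK`. -/
theorem repr_mem (y : OL) (i : Fin n) : b.repr (y : L) i ∈ OK := by
  have hlin : LinearIndependent κ (fun i => R.redL ⟨b i, hb i⟩) := by
    have h := bbar.linearIndependent
    have h2 : (fun i => R.redL ⟨b i, hb i⟩) = bbar := funext fun i => (hbbar i).symm
    rw [h2]
    exact h
  refine coord_mem_of_linearIndependent_red R (fun i => b i) hb hlin
    (fun i => b.repr (y : L) i) ?_ i
  rw [b.sum_repr]
  exact y.2

include hbbar in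
/-- The reduction of an element of `OL` in terms of its coordinates. -/
theorem redL_eq_sum (y : OL) :
    R.redL y = ∑ i, R.redK ⟨b.repr (y : L) i, repr_mem R b hb bbar hbbar y i⟩ • bbar i := by
  have hy : y = ∑ i, (⟨algebraMap K L ((⟨b.repr (y : L) i,
      repr_mem R b hb bbar hbbar y i⟩ : OK) : K), R.map_mem _⟩ : OL) * ⟨b i, hb i⟩ := by
    apply Subtype.ext
    rw [AddSubmonoidClass.coe_finsetSum]
    conv_lhs => rw [← b.sum_repr (y : L)]
    refine Finset.sum_congr rfl fun i _ => ?_
    rw [Subring.coe_mul, Algebra.smul_def]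
  conv_lhs => rw [hy]
  rw [map_sum]
  refine Finset.sum_congr rfl fun i _ => ?_
  rw [map_mul, R.redL_map, Algebra.smul_def, hbbar i]

include hbbar in
/-- Reduction commutes with taking coordinates. -/
theorem red_repr (y : OL) (i : Fin n) :
    R.redK ⟨b.repr (y : L) i, repr_mem R b hb bbar hbbar y i⟩ = bbar.repr (R.redL y) i := by
  rw [redL_eq_sum R b hb bbar hbbar y, bbar.repr_sum_self]

include hbbar in
/-- The trace of an element of `OL` lies in `OK`. -/
theorem trace_mem (y : OL) : Algebra.trace K L (y : L) ∈ OK := by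
  rw [Algebra.trace_eq_matrix_trace b, Matrix.trace]
  refine OK.toSubring.sum_mem fun i _ => ?_
  rw [Matrix.diag_apply, Algebra.leftMulMatrix_eq_repr_mul]
  exact repr_mem R b hb bbar hbbar (y * ⟨b i, hb i⟩) i

include hbbar in
/-- The trace commutes with reduction. -/
theorem red_trace (y : OL) :
    R.redK ⟨Algebra.trace K L (y : L), trace_mem R b hb bbar hbbar y⟩
      = Algebra.trace κ Λ (R.redL y) := by
  rw [Algebra.trace_eq_matrix_trace bbar, Matrix.trace]
  have h1 : (⟨Algebra.trace K L (y : L), trace_mem R b hb bbar hbbar y⟩ : OK)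
      = ∑ i, ⟨b.repr ((y * ⟨b i, hb i⟩ : OL) : L) i,
          repr_mem R b hb bbar hbbar (y * ⟨b i, hb i⟩) i⟩ := by
    apply Subtype.ext
    rw [AddSubmonoidClass.coe_finsetSum]
    show Algebra.trace K L (y : L) = _
    rw [Algebra.trace_eq_matrix_trace b, Matrix.trace]
    refine Finset.sum_congr rfl fun i _ => ?_
    rw [Matrix.diag_apply, Algebra.leftMulMatrix_eq_repr_mul]
    rfl
  rw [h1, map_sum]
  refine Finset.sum_congr rfl fun i _ => ?_
  rw [Matrix.diag_apply, Algebra.leftMulMatrix_eq_repr_mul,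
    red_repr R b hb bbar hbbar (y * ⟨b i, hb i⟩) i, map_mul, hbbar i]

include hbbar in
/-- The discriminant of `b` lies in `OK` and reduces to the discriminant of the reduced basis. -/
theorem discr_mem_and_red :
    ∃ h : Algebra.discr K b ∈ OK, R.redK ⟨Algebra.discr K b, h⟩ = Algebra.discr κ bbar := by
  classical
  let M : Matrix (Fin n) (Fin n) OK := fun i j =>
    ⟨Algebra.trace K L ((⟨b i, hb i⟩ * ⟨b j, hb j⟩ : OL) : L),
      trace_mem R b hb bbar hbbar (⟨b i, hb i⟩ * ⟨b j, hb j⟩)⟩
  have hM : Algebra.traceMatrix K b = M.map OK.subtype := by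
    ext i j
    rw [Algebra.traceMatrix_apply, Algebra.traceForm_apply]
    rfl
  have hMbar : Algebra.traceMatrix κ bbar = M.map R.redK := by
    ext i j
    rw [Algebra.traceMatrix_apply, Algebra.traceForm_apply, Matrix.map_apply]
    show _ = R.redK ⟨Algebra.trace K L ((⟨b i, hb i⟩ * ⟨b j, hb j⟩ : OL) : L), _⟩
    rw [red_trace R b hb bbar hbbar (⟨b i, hb i⟩ * ⟨b j, hb j⟩), R.redL.map_mul, ← hbbar i,
      ← hbbar j]
  have hdet : Algebra.discr K b = OK.subtype M.det := by
    rw [Algebra.discr_def, hM, RingHom.map_det]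
    rfl
  have hmem : Algebra.discr K b ∈ OK := by
    rw [hdet]
    exact M.det.2
  refine ⟨hmem, ?_⟩
  have h2 : (⟨Algebra.discr K b, hmem⟩ : OK) = M.det := by
    apply Subtype.ext
    exact hdet
  rw [h2, Algebra.discr_def, hMbar, RingHom.map_det]
  rfl

include hbbar in
/-- If the reduced extension is separable, the discriminant of `b` is a unit modulo the
maximal ideal: its reduction is nonzero. -/
theorem red_discr_ne_zero [Algebra.IsSeparable κ Λ] :
    ∃ h : Algebra.discr K b ∈ OK, R.redK ⟨Algebra.discr K b, h⟩ ≠ 0 := by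
  obtain ⟨h, hred⟩ := discr_mem_and_red R b hb bbar hbbar
  refine ⟨h, ?_⟩
  rw [hred]
  have : Module.Finite κ Λ := Module.Finite.of_basis bbar
  exact Algebra.discr_not_zero_of_basis κ bbar

end Trace

end Fermat.Agent.H35.KLGB
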