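import Fermat.Agent.H35.KLGB.ModelTowerT
import Fermat.Agent.H27.KLGB.Model
import Fermat.Agent.H1.ESD.T3Laurent

/-!
# P-ES / KL-GB (row 356), closed forms for `ℓ = 3` and `ℓ = 2` (helper35)

* `modelGoodBasis_t2_final (N) (h3 : ¬ 3 ∣ N) : ModelGoodBasisStatement N 3 (H17.ESD.t2S ℚ)`;
* `modelGoodBasis_t3_final (N) (h2 : ¬ 2 ∣ N) : ModelGoodBasisStatement N 2 (H1.ESD.t3 ℚ)`;
* `modelGoodBasis_t3S_final (N) (h2 : ¬ 2 ∣ N) : ModelGoodBasisStatement N 2 (H17.ESD.t3S ℚ)`.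

Inputs: `Fermat.Agent.H27.KLGB.modelGoodBasis_j` (the case `x = j`, every prime `ℓ ∤ N`), the
tower step `Fermat.Agent.H35.KLGB.modelGoodBasis_tower`, and the modular relations
`j t₂² = (t₂ + 256)³`, `j t₃³ = (t₃ + 27)(t₃ + 243)³`.
-/

set_option autoImplicit false

noncomputable section

namespace Fermat.Agent.H35.KLGB

open Polynomial ModularCurve Fermat.Agent.H22.KL

/-- **KL-GB for `x = t₃` (helper1's `t3`) at `ℓ = 2`**, from KL-GB for `x = j`. -/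
theorem modelGoodBasis_t3' (N : ℕ) [NeZero N] (h : ModelGoodBasisStatement N 2 jq) :
    ModelGoodBasisStatement N 2 (Fermat.Agent.H1.ESD.t3 ℚ) := by
  refine modelGoodBasis_tower N 2 (Fermat.Agent.H1.ESD.t3 ℚ) towerPolyThree 3
    towerPolyThree_monic (by norm_num)
    (by rw [towerPolyThree_natDegree]; norm_num) ?_ ?_ ?_ h
  · rw [towerPolyThree_coeff_zero]
    norm_num
  · rw [towerPolyThree_coeff_zero, Int.isCoprime_iff_gcd_eq_one]
    decide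
  · have h1 := Fermat.Agent.H1.ESD.t3_rel ℚ
    rw [jqModC_rat] at h1
    rw [h1, towerPolyThree]
    simp [eval₂_mul, eval₂_pow, eval₂_add, eval₂_X]

/-- **KL-GB, `ℓ = 3`, `x = t₂`** (unconditional). -/
theorem modelGoodBasis_t2_final (N : ℕ) [NeZero N] (h3 : ¬ 3 ∣ N) :
    ModelGoodBasisStatement N 3 (Fermat.Agent.H17.ESD.t2S ℚ) :=
  modelGoodBasis_t2 N (Fermat.Agent.H27.KLGB.modelGoodBasis_j N 3 Nat.prime_three h3)

/-- **KL-GB, `ℓ = 2`, `x = t₃`** (helper1's `t3`; unconditional). -/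
theorem modelGoodBasis_t3_final (N : ℕ) [NeZero N] (h2 : ¬ 2 ∣ N) :
    ModelGoodBasisStatement N 2 (Fermat.Agent.H1.ESD.t3 ℚ) :=
  modelGoodBasis_t3' N (Fermat.Agent.H27.KLGB.modelGoodBasis_j N 2 Nat.prime_two h2)

/-- **KL-GB, `ℓ = 2`, `x = t₃`** (helper17's `t3S`; unconditional). -/
theorem modelGoodBasis_t3S_final (N : ℕ) [NeZero N] (h2 : ¬ 2 ∣ N) :
    ModelGoodBasisStatement N 2 (Fermat.Agent.H17.ESD.t3S ℚ) :=
  modelGoodBasis_t3 N (Fermat.Agent.H27.KLGB.modelGoodBasis_j N 2 Nat.prime_two h2)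

end Fermat.Agent.H35.KLGB
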