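import Fermat.Agent.H22.ES.KLModel
import Fermat.Agent.H35.KLGB.Tower
import Fermat.Agent.H58.KL.ModelTr

/-!
# P-ES / KL-GB, tower step in the concrete model (helper35)

`modelGoodBasis_tower` : if `x₀ : ℚ((q))` satisfies `jq * x₀ ^ e = R(x₀)` for a monic `R ∈ ℤ[X]` of
degree `> e ≥ 1` whose constant coefficient is nonzero and prime to `ℓ`, then
`ModelGoodBasisStatement N ℓ jq → ModelGoodBasisStatement N ℓ x₀`
(in the sense of `Fermat.Agent.H22.KL`, module `KLModel`).
-/

set_option autoImplicit false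
set_option linter.style.haveILetI false
set_option linter.unusedSectionVars false

noncomputable section

namespace Fermat.Agent.H35.KLGB

open Polynomial ModularCurve Fermat.Agent.H22.KL

/-- A Laurent series `t` with `f * t ^ e = R(t)`, where `f` has a simple pole, `e ≥ 1` and
`R(0) ≠ 0`, has nonzero order. -/
theorem order_ne_zero_of_rel {K : Type*} [Field K] (f t : LaurentSeries K) (hf : f.order = -1)
    (R : K[X]) (e : ℕ) (he1 : 1 ≤ e) (hR0 : R.coeff 0 ≠ 0) (hrel : f * t ^ e = aeval t R) :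
    t.order ≠ 0 := by
  intro h0
  have hf0 : f ≠ 0 := by
    rintro rfl
    rw [HahnSeries.order_zero] at hf
    omega
  by_cases ht : t = 0
  · subst ht
    rw [zero_pow (by omega), mul_zero, ← Polynomial.coeff_zero_eq_aeval_zero'] at hrel
    apply hR0
    exact (algebraMap K (LaurentSeries K)).injective (by rw [← hrel, map_zero])
  · have hne : f * t ^ e ≠ 0 := mul_ne_zero hf0 (pow_ne_zero e ht)
    have hord : (f * t ^ e).order = -1 := by
      rw [HahnSeries.order_mul hf0 (pow_ne_zero e ht), HahnSeries.order_pow, h0, hf]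
      simp
    have hc : (f * t ^ e).coeff (-1) ≠ 0 := by
      rw [← hord]
      exact fun h => hne (HahnSeries.coeff_order_eq_zero.mp h)
    have htp : t = HahnSeries.ofPowerSeries ℤ K t.powerSeriesPart := by
      have h1 := LaurentSeries.single_order_mul_powerSeriesPart t
      rw [h0] at h1
      have h2 : (HahnSeries.single (0 : ℤ) (1 : K)) = 1 := rfl
      rw [h2, one_mul] at h1
      exact h1.symm
    have hcomp : (HahnSeries.ofPowerSeries ℤ K).comp (algebraMap K (PowerSeries K))
        = algebraMap K (LaurentSeries K) := by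
      ext c : 1
      simp [ModularCurve.algebraMap_laurentSeries_eq_single]
    apply hc
    rw [hrel, Polynomial.aeval_def, ← hcomp, htp, ← Polynomial.hom_eval₂, PowerSeries.coeff_coe]
    simp

/-- the order of `jq` is `-1` -/
theorem order_jq : (jq : LaurentSeries ℚ).order = -1 := by
  have h1 : (jq : LaurentSeries ℚ).coeff (-1) = 1 := coeff_jq_neg_one
  have hne : (jq : LaurentSeries ℚ) ≠ 0 := by
    intro h0
    rw [h0, HahnSeries.coeff_zero] at h1
    exact zero_ne_one h1
  have hle : (jq : LaurentSeries ℚ).order ≤ -1 :=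
    HahnSeries.order_le_of_coeff_ne_zero (by rw [h1]; exact one_ne_zero)
  by_contra hcon
  have hlt : (jq : LaurentSeries ℚ).order < -1 := lt_of_le_of_ne hle hcon
  apply hne
  rw [← HahnSeries.coeff_order_eq_zero, coeff_jq_of_lt hlt]

/-- an integer prime to `ℓ` is a unit in a local ring in which `ℓ` is not a unit -/
theorem isUnit_intCast_of_isCoprime {A₀ : Type*} [CommRing A₀] [IsLocalRing A₀] {ℓ : ℕ}
    (hℓ : ¬ IsUnit ((ℓ : ℕ) : A₀)) {c : ℤ} (hc : IsCoprime c (ℓ : ℤ)) : IsUnit ((c : ℤ) : A₀) := by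
  obtain ⟨u, v, huv⟩ := hc
  have h1 : ((u : ℤ) : A₀) * ((c : ℤ) : A₀) = 1 - ((v : ℤ) : A₀) * ((ℓ : ℕ) : A₀) := by
    have h2 := congrArg (fun z : ℤ => (z : A₀)) huv
    simp only [Int.cast_add, Int.cast_mul, Int.cast_one, Int.cast_natCast] at h2
    rw [← h2]
    ring
  have h3 : ((v : ℤ) : A₀) * ((ℓ : ℕ) : A₀) ∈ nonunits A₀ := by
    rw [← IsLocalRing.mem_maximalIdeal]
    exact Ideal.mul_mem_left _ _ ((IsLocalRing.mem_maximalIdeal _).mpr hℓ)
  have h4 : IsUnit (((u : ℤ) : A₀) * ((c : ℤ) : A₀)) := by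
    rw [h1]
    exact IsLocalRing.isUnit_one_sub_self_of_mem_nonunits _ h3
  exact isUnit_of_mul_isUnit_right h4

/-- **KL-GB, tower step in the concrete model.** -/
theorem modelGoodBasis_tower (N ℓ : ℕ) [NeZero N] (x₀ : LaurentSeries ℚ) (R : ℤ[X]) (e : ℕ)
    (hR : R.Monic) (he1 : 1 ≤ e) (he : e < R.natDegree) (hR0 : R.coeff 0 ≠ 0)
    (hcop : IsCoprime (R.coeff 0) (ℓ : ℤ))
    (hrel : jq * x₀ ^ e = Polynomial.eval₂ (Int.castRingHom (LaurentSeries ℚ)) x₀ R)
    (h : ModelGoodBasisStatement N ℓ jq) : ModelGoodBasisStatement N ℓ x₀ := by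
  intro K₁ _ _ _ A₀ _ _ _ _ _ _ _ hℓ ϖ hϖ x hx
  -- `j` as an element of the model field
  have hjq : jq ∈ modularFunctionFieldFull N := by
    have h1 := jqd_mem_full N (one_dvd N)
    rwa [qExpand_one_apply] at h1
  have hjmem : coeffEmb K₁ jq ∈ laurentBaseChange K₁ (modularFunctionFieldFull N) :=
    coeffEmb_mem_laurentBaseChange K₁ hjq
  have hGBj := h K₁ A₀ hℓ ϖ hϖ ⟨coeffEmb K₁ jq, hjmem⟩ rfl
  -- characteristic zero
  haveI : CharZero K₁ := algebraRat.charZero K₁
  haveI : CharZero (ModelField K₁ N) :=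
    charZero_of_injective_algebraMap (algebraMap K₁ (ModelField K₁ N)).injective
  -- the order of `x₀`
  have hord : x₀.order ≠ 0 := by
    refine order_ne_zero_of_rel (K := ℚ) jq x₀ order_jq (R.map (Int.castRingHom ℚ)) e he1 ?_ ?_
    · rw [Polynomial.coeff_map, eq_intCast]
      exact_mod_cast hR0
    · rw [hrel, Polynomial.aeval_def, Polynomial.eval₂_map]
      congr 1
      exact RingHom.ext_int _ _
  have htr : Transcendental A₀ x :=
    Fermat.Agent.H58.modelTranscendental_of_order_ne_zero N x₀ hord K₁ A₀ x hx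
  -- the constant coefficient is a unit
  have hunit : IsUnit ((R.map (Int.castRingHom A₀)).coeff 0) := by
    rw [Polynomial.coeff_map]
    exact isUnit_intCast_of_isCoprime hℓ hcop
  -- the relation in the model field
  have hrelE : (⟨coeffEmb K₁ jq, hjmem⟩ : ModelField K₁ N) * x ^ e
      = aeval x (R.map (Int.castRingHom A₀)) := by
    have hinj : Function.Injective
        (algebraMap (ModelField K₁ N) (LaurentSeries K₁)) :=
      RingHom.injective (algebraMap (ModelField K₁ N) (LaurentSeries K₁))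
    apply hinj
    rw [Polynomial.aeval_def, Polynomial.eval₂_map, Polynomial.hom_eval₂, map_mul, map_pow]
    have h1 : algebraMap (ModelField K₁ N) (LaurentSeries K₁) x = coeffEmb K₁ x₀ := hx
    have h2 : algebraMap (ModelField K₁ N) (LaurentSeries K₁) ⟨coeffEmb K₁ jq, hjmem⟩
        = coeffEmb K₁ jq := rfl
    rw [h1, h2]
    have h3 := congrArg (coeffEmb K₁) hrel
    rw [map_mul, map_pow, Polynomial.hom_eval₂] at h3
    rw [h3]
    congr 1
    exact RingHom.ext_int _ _
  exact goodBasis_tower A₀ (ModelField K₁ N) ϖ hϖ ⟨coeffEmb K₁ jq, hjmem⟩ x htr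
    (R.map (Int.castRingHom A₀)) e (hR.map _) he1 (by rwa [hR.natDegree_map]) hunit hrelE hGBj

end Fermat.Agent.H35.KLGB
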