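import Fermat.Agent.H35.KLGB.ModelTower
import Fermat.Agent.H17.ESD.PsiThree

/-!
# P-ES / KL-GB for the Hauptmoduln `t₂` (`ℓ = 3`) and `t₃` (`ℓ = 2`) (helper35)

* `modelGoodBasis_t2` : `ModelGoodBasisStatement N 3 jq → ModelGoodBasisStatement N 3 (t2S ℚ)`
  (from `j t₂² = (t₂ + 256)³`, `Fermat.Agent.H17.ESD.t2S_identity`);
* `modelGoodBasis_t3` : `ModelGoodBasisStatement N 2 jq → ModelGoodBasisStatement N 2 (t3S ℚ)`
  (from `j t₃³ = (t₃ + 27)(t₃ + 243)³`, `Fermat.Agent.H17.ESD.t3S_identity`).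
-/

set_option autoImplicit false

noncomputable section

namespace Fermat.Agent.H35.KLGB

open Polynomial ModularCurve Fermat.Agent.H22.KL Fermat.Agent.H17.ESD

/-- the polynomial `(X + 256)³` -/
def towerPolyTwo : ℤ[X] := (X + C 256) ^ 3

/-- the polynomial `(X + 27)(X + 243)³` -/
def towerPolyThree : ℤ[X] := (X + C 27) * (X + C 243) ^ 3

theorem towerPolyTwo_monic : towerPolyTwo.Monic := (monic_X_add_C _).pow 3

theorem towerPolyThree_monic : towerPolyThree.Monic :=
  (monic_X_add_C _).mul ((monic_X_add_C _).pow 3)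

theorem towerPolyTwo_natDegree : towerPolyTwo.natDegree = 3 := by
  rw [towerPolyTwo, (monic_X_add_C (256 : ℤ)).natDegree_pow, natDegree_X_add_C]

theorem towerPolyThree_natDegree : towerPolyThree.natDegree = 4 := by
  rw [towerPolyThree, (monic_X_add_C (27 : ℤ)).natDegree_mul ((monic_X_add_C (243 : ℤ)).pow 3),
    (monic_X_add_C (243 : ℤ)).natDegree_pow, natDegree_X_add_C, natDegree_X_add_C]

theorem towerPolyTwo_coeff_zero : towerPolyTwo.coeff 0 = 256 ^ 3 := by
  rw [coeff_zero_eq_eval_zero, towerPolyTwo]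
  simp

theorem towerPolyThree_coeff_zero : towerPolyThree.coeff 0 = 27 * 243 ^ 3 := by
  rw [coeff_zero_eq_eval_zero, towerPolyThree]
  simp

/-- **KL-GB for `x = t₂` at `ℓ = 3`**, from KL-GB for `x = j`. -/
theorem modelGoodBasis_t2 (N : ℕ) [NeZero N] (h : ModelGoodBasisStatement N 3 jq) :
    ModelGoodBasisStatement N 3 (t2S ℚ) := by
  refine modelGoodBasis_tower N 3 (t2S ℚ) towerPolyTwo 2 towerPolyTwo_monic (by norm_num)
    (by rw [towerPolyTwo_natDegree]; norm_num) ?_ ?_ ?_ h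
  · rw [towerPolyTwo_coeff_zero]
    norm_num
  · rw [towerPolyTwo_coeff_zero, Int.isCoprime_iff_gcd_eq_one]
    decide
  · have h1 := t2S_identity ℚ
    rw [jqModC_rat] at h1
    rw [h1, towerPolyTwo]
    simp [eval₂_pow, eval₂_add, eval₂_X]

/-- **KL-GB for `x = t₃` at `ℓ = 2`**, from KL-GB for `x = j`. -/
theorem modelGoodBasis_t3 (N : ℕ) [NeZero N] (h : ModelGoodBasisStatement N 2 jq) :
    ModelGoodBasisStatement N 2 (t3S ℚ) := by
  refine modelGoodBasis_tower N 2 (t3S ℚ) towerPolyThree 3 towerPolyThree_monic (by norm_num)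
    (by rw [towerPolyThree_natDegree]; norm_num) ?_ ?_ ?_ h
  · rw [towerPolyThree_coeff_zero]
    norm_num
  · rw [towerPolyThree_coeff_zero, Int.isCoprime_iff_gcd_eq_one]
    decide
  · have h1 := t3S_identity ℚ
    rw [jqModC_rat] at h1
    rw [h1, towerPolyThree]
    simp [eval₂_mul, eval₂_pow, eval₂_add, eval₂_X]

end Fermat.Agent.H35.KLGB
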